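import Mathlib.Data.Matrix.Mul
import Mathlib.LinearAlgebra.Matrix.Symmetric
import Mathlib.Data.Rat.Lemmas
import Mathlib.Algebra.BigOperators.Field
import Mathlib.Algebra.Order.Ring.Abs
import Mathlib.Tactic.FieldSimp
import Mathlib.Tactic.Linarith
import Mathlib.Tactic.Positivity
import Mathlib.Tactic.LinearCombination

/-!
# The lemma of Aubry, Davenport and Cassels

Among the integral `t` and `d ≠ 0` with `Q t = m d ²` take `|d|` least. If `t / d` is not integral,
an integral `y` near it gives a further intersection of the line through both with the quadric, with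
denominator `d Q (t / d - y)`.
-/

set_option autoImplicit false

namespace FA.UniversalForms

open Matrix

/-- **Davenport and Cassels.** -/
theorem exists_integral_rep {n : ℕ} (M : Matrix (Fin n) (Fin n) ℤ) (hM : M.IsSymm)
    (hnear : ∀ x : Fin n → ℚ, (∃ i, ∀ z : ℤ, x i ≠ z) → ∃ y : Fin n → ℤ,
      0 < |(fun i => x i - y i) ⬝ᵥ M.map (Int.cast : ℤ → ℚ) *ᵥ fun i => x i - y i| ∧
        |(fun i => x i - y i) ⬝ᵥ M.map (Int.cast : ℤ → ℚ) *ᵥ fun i => x i - y i| < 1)
    (m : ℤ) (x : Fin n → ℚ) (hx : x ⬝ᵥ M.map (Int.cast : ℤ → ℚ) *ᵥ x = m) :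
    ∃ y : Fin n → ℤ, y ⬝ᵥ M *ᵥ y = m := by
  classical
  set B : (Fin n → ℤ) → (Fin n → ℤ) → ℤ := fun u v => u ⬝ᵥ M *ᵥ v with hB
  have hsymm : ∀ u v, B u v = B v u := fun u v => by
    simp only [hB]
    rw [dotProduct_comm, ← vecMul_transpose, ← dotProduct_mulVec, hM.eq]
  have hlin : ∀ (a b : ℤ) u v w, B (a • u + b • v) w = a * B u w + b * B v w := fun a b u v w => by
    simp only [hB, add_dotProduct, smul_dotProduct, smul_eq_mul]
  have hlin' : ∀ (a b : ℤ) u v w, B w (a • u + b • v) = a * B w u + b * B w v := fun a b u v w => by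
    rw [hsymm, hlin, hsymm u, hsymm v]
  have hex : ∃ d : ℕ, 0 < d ∧ ∃ t : Fin n → ℤ, B t t = m * (d : ℤ) ^ 2 := by
    set D : ℕ := ∏ i, (x i).den
    have hD : 0 < D := Finset.prod_pos fun i _ => (x i).den_pos
    have hint : ∀ i, ∃ z : ℤ, x i * (D : ℚ) = z := fun i => by
      obtain ⟨e, he⟩ := Finset.dvd_prod_of_mem (fun i => (x i).den) (Finset.mem_univ i)
      refine ⟨(x i).num * e, ?_⟩
      rw [show (D : ℚ) = ((x i).den : ℚ) * e by rw [← Nat.cast_mul, ← he], ← mul_assoc,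
        Rat.mul_den_eq_num, Int.cast_mul, Int.cast_natCast]
    choose t ht using hint
    refine ⟨D, hD, t, Int.cast_injective (α := ℚ) ?_⟩
    simp only [hB, Int.cast_mul, Int.cast_pow, Int.cast_natCast, ← hx, dotProduct, Matrix.mulVec,
      Int.cast_sum, ← ht, Matrix.map_apply, Finset.sum_mul, Finset.mul_sum]
    exact Finset.sum_congr rfl fun i _ => Finset.sum_congr rfl fun j _ => by ring
  obtain ⟨hd, t, ht⟩ := Nat.find_spec hex
  set d := Nat.find hex with hdd
  by_cases hint : ∀ i, (d : ℤ) ∣ t i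
  · choose y hy using hint
    refine ⟨y, ?_⟩
    have e : t = (d : ℤ) • y + (0 : ℤ) • y := funext fun i => by simp [hy i]
    rw [e, hlin, hlin'] at ht
    exact mul_left_cancel₀ (pow_ne_zero 2 (Int.natCast_ne_zero.2 hd.ne'))
      (show ((d : ℤ) ^ 2) * B y y = (d : ℤ) ^ 2 * m by linear_combination ht)
  exfalso
  simp only [not_forall] at hint
  obtain ⟨i, hi⟩ := hint
  have hdq : (d : ℚ) ≠ 0 := Nat.cast_ne_zero.2 hd.ne'
  obtain ⟨y, hy0, hy1⟩ := hnear (fun i => (t i : ℚ) / d) ⟨i, fun z hz => hi ⟨z, by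
    rw [div_eq_iff hdq] at hz
    exact_mod_cast hz.trans (mul_comm _ _)⟩⟩
  set w := (1 : ℤ) • t + (-(d : ℤ)) • y with hw
  have hcast : (fun i => (t i : ℚ) / d - y i) ⬝ᵥ M.map (Int.cast : ℤ → ℚ) *ᵥ
      (fun i => (t i : ℚ) / d - y i) = (B w w : ℚ) / (d : ℚ) ^ 2 := by
    simp only [hB, hw, dotProduct, Matrix.mulVec, Int.cast_sum, Int.cast_mul, Matrix.map_apply,
      Finset.mul_sum, Finset.sum_div, Pi.add_apply, Pi.smul_apply, smul_eq_mul, Int.cast_add,
      Int.cast_neg, Int.cast_natCast, Int.cast_one]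
    exact Finset.sum_congr rfl fun i _ => Finset.sum_congr rfl fun j _ => by field_simp; ring
  rw [hcast, abs_div, abs_of_nonneg (sq_nonneg (d : ℚ))] at hy0 hy1
  rw [div_lt_one (by positivity), ← Int.cast_abs] at hy1
  have hlt : |B w w| < (d : ℤ) ^ 2 := by exact_mod_cast hy1
  have hne : B w w ≠ 0 := fun h => by simp [h] at hy0
  set a := B y y - m
  set b := 2 * ((d : ℤ) * m - B t y)
  set d' := a * d + b
  have e1 : (d : ℤ) * d' = B w w := by
    simp only [hw, hlin, hlin', d', a, b, hsymm y t]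
    linear_combination (-1 : ℤ) * ht
  have e2 : B (a • t + b • y) (a • t + b • y) = m * d' ^ 2 := by
    simp only [hlin, hlin', d', a, b, hsymm y t]
    linear_combination (B y y - m) ^ 2 * ht
  have hd'0 : d' ≠ 0 := fun h => hne (by rw [← e1, h, mul_zero])
  refine Nat.find_min hex (m := d'.natAbs) ?_
    ⟨Int.natAbs_pos.2 hd'0, a • t + b • y, by rw [Int.natCast_natAbs, sq_abs, e2]⟩
  rw [← e1, abs_mul, Nat.abs_cast, sq] at hlt
  have := lt_of_mul_lt_mul_left hlt (by positivity)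
  rw [← hdd, ← Int.ofNat_lt, Int.natCast_natAbs]
  exact this

end FA.UniversalForms
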