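import Mathlib.RingTheory.Int.Basic
import Mathlib.Data.Int.Interval
import Mathlib.Algebra.GCDMonoid.Basic
import Mathlib.Tactic.LinearCombination
import Mathlib.Tactic.Linarith
import Mathlib.Tactic.IntervalCases

/-!
# Ternary forms are not universal

A form representing `1` is `X² + B (I, J)` with a reduced binary form `m I² + 2 b I J + c J²`;
representing `2`, `3` and `5` leaves eleven forms, and each misses one of `5, 6, 7, 10, 14`.
-/

set_option autoImplicit false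

namespace FA.UniversalForms

/-- The integers to be represented. -/
def truants : Finset ℤ :=
  {1, 2, 3, 5, 6, 7, 10, 14}

/-- The value of a ternary form. -/
def tern (a b c f g h x y z : ℤ) : ℤ :=
  a * x ^ 2 + b * y ^ 2 + c * z ^ 2 + 2 * f * y * z + 2 * g * x * z + 2 * h * x * y

variable {a b c f g h : ℤ}

/-- **Splitting off one.** -/
theorem exists_split (hpos : ∀ x y z : ℤ, (x ≠ 0 ∨ y ≠ 0 ∨ z ≠ 0) → 0 < tern a b c f g h x y z)
    {x y z : ℤ} (h1 : tern a b c f g h x y z = 1) :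
    ∃ A B C : ℤ, (∀ i j : ℤ, (i ≠ 0 ∨ j ≠ 0) → 0 < A * i ^ 2 + 2 * B * i * j + C * j ^ 2) ∧
      ∀ X Y Z : ℤ, ∃ r i j : ℤ,
        tern a b c f g h X Y Z = r ^ 2 + (A * i ^ 2 + 2 * B * i * j + C * j ^ 2) := by
  obtain ⟨G, x', y', s, t, hx, hy, hst⟩ : ∃ G x' y' s t : ℤ,
      x = G * x' ∧ y = G * y' ∧ s * x' + t * y' = 1 := by
    rcases Nat.eq_zero_or_pos (Int.gcd x y) with h0 | h0
    · obtain ⟨rfl, rfl⟩ := Int.gcd_eq_zero_iff.1 h0
      exact ⟨0, 1, 0, 1, 0, by ring, by ring, by ring⟩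
    · obtain ⟨x', y', hcop, hx, hy⟩ := Int.exists_gcd_one h0
      obtain ⟨s, t, hst⟩ := Int.isCoprime_iff_gcd_eq_one.2 hcop
      exact ⟨Int.gcd x y, x', y', s, t, hx.trans (mul_comm _ _), hy.trans (mul_comm _ _), hst⟩
  obtain ⟨p, q, hpq⟩ : ∃ p q : ℤ, p * G + q * z = 1 := by
    refine Int.isCoprime_iff_gcd_eq_one.2 ?_
    have hdvd : ((Int.gcd G z : ℕ) : ℤ) ^ 2 ∣ tern a b c f g h x y z := by
      obtain ⟨u, hu⟩ := Int.gcd_dvd_left G z
      obtain ⟨v, hv⟩ := Int.gcd_dvd_right G z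
      generalize ((Int.gcd G z : ℕ) : ℤ) = d at hu hv ⊢
      refine ⟨tern a b c f g h (u * x') (u * y') v, ?_⟩
      conv_lhs => rw [hx, hy, hu, hv]
      simp only [tern]
      ring
    rw [h1] at hdvd
    have := Int.eq_one_of_dvd_one (by positivity) hdvd
    exact_mod_cast (pow_eq_one_iff_of_nonneg (by positivity) two_ne_zero).1 this
  set β : ℤ → ℤ → ℤ → ℤ → ℤ → ℤ → ℤ := fun u₀ u₁ u₂ w₀ w₁ w₂ =>
    a * u₀ * w₀ + b * u₁ * w₁ + c * u₂ * w₂ + f * (u₁ * w₂ + u₂ * w₁) + g * (u₀ * w₂ + u₂ * w₀) +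
      h * (u₀ * w₁ + u₁ * w₀) with hβ
  set hu := β x y z (-t) s 0
  set hw := β x y z (-(q * x')) (-(q * y')) p
  have key : ∀ α i j : ℤ, tern a b c f g h (α * x + i * -t + j * -(q * x'))
      (α * y + i * s + j * -(q * y')) (α * z + j * p) = (α + hu * i + hw * j) ^ 2 +
        ((β (-t) s 0 (-t) s 0 - hu ^ 2) * i ^ 2 +
          2 * (β (-t) s 0 (-(q * x')) (-(q * y')) p - hu * hw) * i * j +
          (β (-(q * x')) (-(q * y')) p (-(q * x')) (-(q * y')) p - hw ^ 2) * j ^ 2) :=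
    fun α i j => by
    simp only [tern, hu, hw, hβ] at h1 ⊢
    linear_combination α ^ 2 * h1
  refine ⟨β (-t) s 0 (-t) s 0 - hu ^ 2,
    β (-t) s 0 (-(q * x')) (-(q * y')) p - hu * hw,
    β (-(q * x')) (-(q * y')) p (-(q * x')) (-(q * y')) p - hw ^ 2,
    fun i j hij => ?_, fun X Y Z => ?_⟩
  · have e := key (-(hu * i + hw * j)) i j
    rw [show -(hu * i + hw * j) + hu * i + hw * j = 0 by ring, zero_pow two_ne_zero,
      zero_add] at e
    rw [← e]
    refine hpos _ _ _ ?_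
    by_contra hc
    simp only [not_or, not_not] at hc
    obtain ⟨e0, e1, e2⟩ := hc
    set α := -(hu * i + hw * j)
    have hi : i = 0 := by
      linear_combination (-y') * e0 + x' * e1 + (y' * α) * hx - (x' * α) * hy - i * hst
    subst hi
    have hm : α * G - j * q = 0 := by
      linear_combination s * e0 + t * e1 - (α * s) * hx - (α * t) * hy -
        (α * G - j * q) * hst
    have hj : j = 0 := by linear_combination G * e2 - z * hm - j * hpq
    exact hij.elim (fun h => h rfl) fun h => h hj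
  · refine ⟨_, -y' * X + x' * Y, G * Z - z * (s * X + t * Y), Eq.trans ?_
      (key (p * (s * X + t * Y) + q * Z) _ _)⟩
    congr 1
    · linear_combination (-X) * hst - (p * (s * X + t * Y) + q * Z) * hx -
        (x' * (s * X + t * Y)) * hpq
    · linear_combination (-Y) * hst - (p * (s * X + t * Y) + q * Z) * hy -
        (y' * (s * X + t * Y)) * hpq
    · linear_combination (-Z) * hpq

/-- **A reduced form.** -/
theorem exists_reduced {A B C : ℤ}
    (hpos : ∀ i j : ℤ, (i ≠ 0 ∨ j ≠ 0) → 0 < A * i ^ 2 + 2 * B * i * j + C * j ^ 2) :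
    ∃ m b c : ℤ, 0 < m ∧ 0 ≤ b ∧ 2 * b ≤ m ∧ m ≤ c ∧
      (∀ i j : ℤ, (i ≠ 0 ∨ j ≠ 0) → m ≤ A * i ^ 2 + 2 * B * i * j + C * j ^ 2) ∧
      ∀ i j : ℤ, ∃ i' j' : ℤ, A * i ^ 2 + 2 * B * i * j + C * j ^ 2 =
        m * i' ^ 2 + 2 * b * i' * j' + c * j' ^ 2 := by
  classical
  set F : ℤ → ℤ → ℤ := fun i j => A * i ^ 2 + 2 * B * i * j + C * j ^ 2 with hF
  have hex : ∃ k : ℕ, ∃ i j : ℤ, (i ≠ 0 ∨ j ≠ 0) ∧ F i j = k :=
    ⟨(F 1 0).toNat, 1, 0, Or.inl one_ne_zero,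
      (Int.toNat_of_nonneg (hpos 1 0 (Or.inl one_ne_zero)).le).symm⟩
  obtain ⟨i₀, j₀, h0, hm⟩ := Nat.find_spec hex
  set m : ℤ := ((Nat.find hex : ℕ) : ℤ)
  have hmin : ∀ i j : ℤ, (i ≠ 0 ∨ j ≠ 0) → m ≤ F i j := fun i j hij => by
    have := Nat.find_le (h := hex) (n := (F i j).toNat)
      ⟨i, j, hij, (Int.toNat_of_nonneg (hpos i j hij).le).symm⟩
    have := hpos i j hij
    simp only [hF] at *
    omega
  have hmpos : 0 < m := hm ▸ hpos i₀ j₀ h0
  obtain ⟨s, t, hst⟩ : IsCoprime i₀ j₀ := by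
    rw [Int.isCoprime_iff_gcd_eq_one]
    have hd : 0 < Int.gcd i₀ j₀ := Nat.pos_of_ne_zero fun e => by
      obtain ⟨e1, e2⟩ := Int.gcd_eq_zero_iff.1 e
      exact h0.elim (fun h => h e1) fun h => h e2
    obtain ⟨i₁, j₁, -, hi, hj⟩ := Int.exists_gcd_one hd
    by_contra hne
    have h1 : i₁ ≠ 0 ∨ j₁ ≠ 0 := h0.imp (fun h e => h (by rw [hi, e, zero_mul]))
      fun h e => h (by rw [hj, e, zero_mul])
    have e : m = F i₁ j₁ * (Int.gcd i₀ j₀ : ℤ) ^ 2 := by
      rw [← hm]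
      generalize ((Int.gcd i₀ j₀ : ℕ) : ℤ) = d at hi hj ⊢
      conv_lhs => rw [hi, hj]
      simp only [hF]
      ring
    have h2 : (4 : ℤ) ≤ (Int.gcd i₀ j₀ : ℤ) ^ 2 := by
      have : (2 : ℤ) ≤ Int.gcd i₀ j₀ := by omega
      nlinarith
    nlinarith [hmin i₁ j₁ h1, hpos i₁ j₁ h1]
  set b₁ := A * i₀ * -t + B * (i₀ * s + j₀ * -t) + C * j₀ * s with hb₁
  set k := (2 * b₁ + m) / (2 * m) with hk
  have hk1 := Int.emod_nonneg (2 * b₁ + m) (show 2 * m ≠ 0 by omega)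
  have hk2 := Int.emod_lt_of_pos (2 * b₁ + m) (show 0 < 2 * m by omega)
  have hk3 := Int.emod_add_mul_ediv (2 * b₁ + m) (2 * m)
  rw [← hk] at hk3
  obtain ⟨ε, hε, hb⟩ : ∃ ε : ℤ, ε * ε = 1 ∧ 0 ≤ ε * (b₁ - k * m) ∧
      2 * (ε * (b₁ - k * m)) ≤ m := by
    rcases le_total 0 (b₁ - k * m) with h | h
    · exact ⟨1, one_mul 1, by rwa [one_mul], by nlinarith⟩
    · exact ⟨-1, by ring, by linarith, by nlinarith⟩
  set u := ε * (-t - k * i₀) with hu
  set v := ε * (s - k * j₀) with hv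
  have hdet : i₀ * v - j₀ * u = ε := by
    rw [hu, hv]
    linear_combination ε * hst
  refine ⟨m, ε * (b₁ - k * m), F u v, hmpos, hb.1, hb.2, hmin u v ?_, hmin, fun i j => ?_⟩
  · by_contra hc
    simp only [not_or, not_not] at hc
    rw [hc.1, hc.2] at hdet
    rw [← hdet] at hε
    simp at hε
  refine ⟨ε * (v * i - u * j), ε * (i₀ * j - j₀ * i), ?_⟩
  have e : ∀ I J : ℤ, F (I * i₀ + J * u) (I * j₀ + J * v) =
      m * I ^ 2 + 2 * (ε * (b₁ - k * m)) * I * J + F u v * J ^ 2 := fun I J => by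
    rw [← hm]
    simp only [hF, hu, hv, hb₁]
    ring
  show F i j = _
  rw [← e]
  congr 1
  · linear_combination -(ε * i) * hdet - i * hε
  · linear_combination -(ε * j) * hdet - j * hε

/-- The check of the finitely many forms. -/
theorem escalators : ∀ p ∈ ({(1, 0, 1), (1, 0, 2), (1, 0, 3), (2, 0, 2), (2, 0, 3), (2, 0, 4),
      (2, 0, 5), (2, 1, 2), (2, 1, 3), (2, 1, 4), (2, 1, 5)} : Finset (ℤ × ℤ × ℤ)),
    ∃ n ∈ truants, ∀ r ∈ Finset.Icc (-3 : ℤ) 3, ∀ i ∈ Finset.Icc (-5 : ℤ) 5,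
      ∀ j ∈ Finset.Icc (-4 : ℤ) 4,
        r ^ 2 + (p.1 * i ^ 2 + 2 * p.2.1 * i * j + p.2.2 * j ^ 2) ≠ n := by
  decide +kernel

/-- **No ternary form is universal.** -/
theorem exists_truant (hpos : ∀ x y z : ℤ, (x ≠ 0 ∨ y ≠ 0 ∨ z ≠ 0) → 0 < tern a b c f g h x y z) :
    ∃ n ∈ truants, ∀ x y z : ℤ, tern a b c f g h x y z ≠ n := by
  by_contra hc
  simp only [not_exists, not_and, not_forall, not_not] at hc
  obtain ⟨x, y, z, h1⟩ := hc 1 (by decide)
  obtain ⟨A, B, C, hB, hrep⟩ := exists_split hpos h1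
  obtain ⟨m, b', c', hm0, hb0, hbm, hmc, hmin, hred⟩ := exists_reduced hB
  have hval : ∀ n ∈ truants, ∃ r i j : ℤ,
      r ^ 2 + (m * i ^ 2 + 2 * b' * i * j + c' * j ^ 2) = n := fun n hn => by
    obtain ⟨X, Y, Z, e⟩ := hc n hn
    obtain ⟨r, i, j, e'⟩ := hrep X Y Z
    obtain ⟨i', j', e''⟩ := hred i j
    exact ⟨r, i', j', by rw [← e'', ← e', e]⟩
  have hm2 : m ≤ 2 := by
    obtain ⟨X, Y, Z, e⟩ := hc 2 (by decide)
    obtain ⟨r, i, j, e'⟩ := hrep X Y Z
    rw [e] at e'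
    by_cases hij : i ≠ 0 ∨ j ≠ 0
    · nlinarith [hmin i j hij, sq_nonneg r]
    · simp only [not_or, not_not] at hij
      rw [hij.1, hij.2] at e'
      have : r ^ 2 = 2 := by linarith
      have hr : r ≤ 1 := by nlinarith
      have hr' : -1 ≤ r := by nlinarith
      interval_cases r <;> norm_num at this
  have hcase : (m, b', c') ∈ ({(1, 0, 1), (1, 0, 2), (1, 0, 3), (2, 0, 2), (2, 0, 3), (2, 0, 4),
      (2, 0, 5), (2, 1, 2), (2, 1, 3), (2, 1, 4), (2, 1, 5)} : Finset (ℤ × ℤ × ℤ)) := by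
    rcases (show m = 1 ∨ m = 2 by omega) with rfl | rfl
    · obtain rfl : b' = 0 := by omega
      obtain ⟨r, i, j, e⟩ := hval 3 (by decide)
      have hc3 : c' ≤ 3 := by
        rcases eq_or_ne j 0 with rfl | hj
        · have hr2 : r ≤ 1 := by nlinarith
          have hr3 : -1 ≤ r := by nlinarith
          have hi2 : i ≤ 1 := by nlinarith
          have hi3 : -1 ≤ i := by nlinarith
          interval_cases r <;> interval_cases i <;> norm_num at e
        · have : 1 ≤ j ^ 2 := by nlinarith [sq_abs j, Int.one_le_abs hj]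
          nlinarith [sq_nonneg r, sq_nonneg i]
      interval_cases c' <;> decide
    · obtain ⟨r, i, j, e⟩ := hval 5 (by decide)
      have hb1 : b' ≤ 1 := by omega
      have hc5 : c' ≤ 5 := by
        rcases eq_or_ne j 0 with rfl | hj
        · have hr2 : r ≤ 2 := by nlinarith [sq_nonneg i]
          have hr3 : -2 ≤ r := by nlinarith [sq_nonneg i]
          have hi2 : i ≤ 1 := by nlinarith [sq_nonneg r]
          have hi3 : -1 ≤ i := by nlinarith [sq_nonneg r]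
          interval_cases r <;> interval_cases i <;> norm_num at e
        · have : 1 ≤ j ^ 2 := by nlinarith [sq_abs j, Int.one_le_abs hj]
          interval_cases b' <;> nlinarith [sq_nonneg r, sq_nonneg i, sq_nonneg (2 * i + j)]
      interval_cases b' <;> interval_cases c' <;> decide
  obtain ⟨n, hn, hne⟩ := escalators _ hcase
  obtain ⟨r, i, j, e⟩ := hval n hn
  have hn14 : n ≤ 14 := (by decide : ∀ n ∈ truants, n ≤ (14 : ℤ)) n hn
  set q := m * i ^ 2 + 2 * b' * i * j + c' * j ^ 2 with hq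
  have hd : 4 * b' ^ 2 ≤ m * c' := by nlinarith
  have hj : 3 * j ^ 2 * c' ≤ 4 * q := by
    refine le_of_mul_le_mul_left ?_ hm0
    nlinarith [sq_nonneg (m * i + b' * j), mul_le_mul_of_nonneg_right hd (sq_nonneg j)]
  have hi : 3 * i ^ 2 * m ≤ 4 * q := by
    refine le_of_mul_le_mul_left ?_ (lt_of_lt_of_le hm0 hmc)
    nlinarith [sq_nonneg (c' * j + b' * i), mul_le_mul_of_nonneg_right hd (sq_nonneg i)]
  have hj' : j ^ 2 ≤ j ^ 2 * c' := le_mul_of_one_le_right (sq_nonneg j) (by omega)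
  have hi' : i ^ 2 ≤ i ^ 2 * m := le_mul_of_one_le_right (sq_nonneg i) (by omega)
  have hjj : j ^ 2 ≤ 18 := by nlinarith [sq_nonneg r]
  have hii : i ^ 2 ≤ 18 := by nlinarith [sq_nonneg r]
  have hr : r ^ 2 ≤ 14 := by nlinarith [sq_nonneg i]
  refine hne r (Finset.mem_Icc.2 ⟨by nlinarith, by nlinarith⟩) i
    (Finset.mem_Icc.2 ⟨by nlinarith, by nlinarith⟩) j
    (Finset.mem_Icc.2 ⟨by nlinarith, by nlinarith⟩) e

end FA.UniversalForms
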